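/-
K-machine, piece K2-3 (helper70): power series rings over a complete ring are complete.

`A` a commutative ring, `I` an ideal, `σ` finite, `P = A[[σ]]`, `M = (I, X) ⊆ P`.
* `rtk2cB I n` : the ideal of the `f` with `coeff α f ∈ I ^ (n - |α|)` for all `α`;
* `rtk2c_pow_eq` : `M ^ n = rtk2cB I n`;
* `rtk2c_isPrecomplete` : `A` `I`-adically precomplete ⇒ `P` `M`-adically precomplete.
Mathlib-only.
-/
import Mathlib

set_option autoImplicit false

namespace Fermat.Agent.RT.K2c

open MvPowerSeries Finsupp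

variable {σ A : Type*} [CommRing A]

/-- The ideal `(I, X)` of `A[[X]]`. -/
noncomputable def rtk2cM (σ : Type*) {A : Type*} [CommRing A] (I : Ideal A) :
    Ideal (MvPowerSeries σ A) :=
  I.map (MvPowerSeries.C (σ := σ) (R := A)) ⊔
    Ideal.span (Set.range (MvPowerSeries.X : σ → MvPowerSeries σ A))

theorem rtk2c_coeff_mul_mem (I : Ideal A) {m n : ℕ} {f g : MvPowerSeries σ A}
    (hf : ∀ α : σ →₀ ℕ, coeff α f ∈ I ^ (m - degree α))
    (hg : ∀ α : σ →₀ ℕ, coeff α g ∈ I ^ (n - degree α)) (α : σ →₀ ℕ) :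
    coeff α (f * g) ∈ I ^ (m + n - degree α) := by
  classical
  rw [coeff_mul]
  refine Ideal.sum_mem _ ?_
  rintro ⟨β, γ⟩ h
  have hαβ : β + γ = α := Finset.HasAntidiagonal.mem_antidiagonal.mp h
  have hd : degree α = degree β + degree γ := by rw [← hαβ, map_add]
  have h1 : coeff β f * coeff γ g ∈ I ^ (m - degree β) * I ^ (n - degree γ) :=
    Ideal.mul_mem_mul (hf β) (hg γ)
  rw [← pow_add] at h1
  exact Ideal.pow_le_pow_right (by omega) h1

/-- The coefficient filtration: `coeff α f ∈ I ^ (n - |α|)`. -/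
def rtk2cB (σ : Type*) {A : Type*} [CommRing A] (I : Ideal A) (n : ℕ) :
    Ideal (MvPowerSeries σ A) where
  carrier := {f | ∀ α : σ →₀ ℕ, coeff α f ∈ I ^ (n - degree α)}
  zero_mem' := fun α => by simp
  add_mem' := fun {f g} hf hg α => by
    rw [map_add]
    exact Ideal.add_mem _ (hf α) (hg α)
  smul_mem' := fun c f hf α => by
    have h0 : ∀ α : σ →₀ ℕ, coeff α c ∈ I ^ (0 - degree α) := fun α => by simp
    have := rtk2c_coeff_mul_mem I h0 hf α
    rwa [zero_add] at this

theorem rtk2c_mem_B (I : Ideal A) (n : ℕ) (f : MvPowerSeries σ A) :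
    f ∈ rtk2cB σ I n ↔ ∀ α : σ →₀ ℕ, coeff α f ∈ I ^ (n - degree α) := Iff.rfl

theorem rtk2c_B_mul_le (I : Ideal A) (m n : ℕ) :
    rtk2cB σ I m * rtk2cB σ I n ≤ rtk2cB σ I (m + n) := by
  rw [Ideal.mul_le]
  intro f hf g hg α
  exact rtk2c_coeff_mul_mem I hf hg α

theorem rtk2c_B_zero (I : Ideal A) : rtk2cB σ I 0 = ⊤ := by
  rw [eq_top_iff]
  intro f _ α
  simp

theorem rtk2c_M_le_B (I : Ideal A) : rtk2cM σ I ≤ rtk2cB σ I 1 := by
  classical
  rw [rtk2cM, sup_le_iff, Ideal.map_le_iff_le_comap, Ideal.span_le]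
  constructor
  · intro a ha α
    rw [coeff_C]
    split_ifs with h
    · rw [h]
      simpa using ha
    · exact Ideal.zero_mem _
  · rintro _ ⟨i, rfl⟩ α
    rw [coeff_X]
    split_ifs with h
    · rw [h]
      simp
    · exact Ideal.zero_mem _

theorem rtk2c_pow_le_B (I : Ideal A) (n : ℕ) : rtk2cM σ I ^ n ≤ rtk2cB σ I n := by
  induction n with
  | zero => rw [rtk2c_B_zero]; exact le_top
  | succ n ih =>
    rw [pow_succ]
    exact (Ideal.mul_mono ih (rtk2c_M_le_B I)).trans (rtk2c_B_mul_le I n 1)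

theorem rtk2c_algebraMap_mem [Finite σ] (n : ℕ) (a : MvPolynomial σ A)
    (ha : a ∈ MvPolynomial.idealOfVars σ A ^ n) :
    algebraMap (MvPolynomial σ A) (MvPowerSeries σ A) a ∈
      (Ideal.span (Set.range (MvPowerSeries.X : σ → MvPowerSeries σ A))) ^ n := by
  have h1 : Ideal.map (algebraMap (MvPolynomial σ A) (MvPowerSeries σ A))
      (MvPolynomial.idealOfVars σ A) ≤
      Ideal.span (Set.range (MvPowerSeries.X : σ → MvPowerSeries σ A)) := by
    rw [Ideal.map_span, Ideal.span_le]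
    rintro _ ⟨_, ⟨i, rfl⟩, rfl⟩
    refine Ideal.subset_span ⟨i, ?_⟩
    rw [MvPowerSeries.algebraMap_apply', MvPolynomial.coe_X, Algebra.algebraMap_self,
      MvPowerSeries.map_id]
    rfl
  have h2 := Ideal.mem_map_of_mem (algebraMap (MvPolynomial σ A) (MvPowerSeries σ A)) ha
  rw [Ideal.map_pow] at h2
  exact Ideal.pow_right_mono h1 n h2

theorem rtk2c_tail [Finite σ] (n : ℕ) (g : MvPowerSeries σ A)
    (hg : ∀ α : σ →₀ ℕ, degree α < n → coeff α g = 0) :
    g ∈ (Ideal.span (Set.range (MvPowerSeries.X : σ → MvPowerSeries σ A))) ^ n := by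
  classical
  have htr : truncTotal n g = 0 := by
    ext α
    rw [coeff_truncTotal_eq_ite]
    split_ifs with h
    · rw [hg α h]; simp
    · simp
  have h1 : toAdicCompletionAlgEquiv σ A g ∈
      (MvPolynomial.idealOfVars σ A ^ n • ⊤ :
        Submodule (MvPolynomial σ A)
          (AdicCompletion (MvPolynomial.idealOfVars σ A) (MvPolynomial σ A))) := by
    rw [AdicCompletion.pow_smul_top_eq_ker_eval (MvPolynomial.idealOfVars_fg σ A),
      LinearMap.mem_ker, AdicCompletion.eval_apply, toAdicCompletionAlgEquiv_apply,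
      toAdicCompletion_apply_eq_mk_truncTotal, htr]
    rfl
  have h2 : g ∈ (MvPolynomial.idealOfVars σ A ^ n • ⊤ :
        Submodule (MvPolynomial σ A) (MvPowerSeries σ A)) := by
    have h3 : (toAdicCompletionAlgEquiv σ A).symm.toLinearMap (toAdicCompletionAlgEquiv σ A g) ∈
        Submodule.map (toAdicCompletionAlgEquiv σ A).symm.toLinearMap
          (MvPolynomial.idealOfVars σ A ^ n • ⊤ :
            Submodule (MvPolynomial σ A)
              (AdicCompletion (MvPolynomial.idealOfVars σ A) (MvPolynomial σ A))) :=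
      Submodule.mem_map_of_mem h1
    rw [Submodule.map_smul''] at h3
    have h4 : (toAdicCompletionAlgEquiv σ A).symm.toLinearMap (toAdicCompletionAlgEquiv σ A g)
        = g := (toAdicCompletionAlgEquiv σ A).symm_apply_apply g
    rw [h4] at h3
    exact Submodule.smul_mono le_rfl le_top h3
  refine Submodule.smul_induction_on h2 ?_ ?_
  · intro a ha x _
    rw [Algebra.smul_def]
    exact Ideal.mul_mem_right _ _ (rtk2c_algebraMap_mem n a ha)
  · intro x y hx hy
    exact Ideal.add_mem _ hx hy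


theorem rtk2c_monomial_mem [Finite σ] (I : Ideal A) (n : ℕ) (α : σ →₀ ℕ) (c : A)
    (hc : c ∈ I ^ (n - degree α)) :
    MvPowerSeries.monomial α c ∈ rtk2cM σ I ^ n := by
  classical
  by_cases hα : n ≤ degree α
  · refine Ideal.pow_right_mono le_sup_right n (rtk2c_tail n _ fun β hβ => ?_)
    rw [coeff_monomial, if_neg]
    rintro rfl
    omega
  have h1 : MvPowerSeries.monomial α c =
      MvPowerSeries.C (σ := σ) (R := A) c * MvPowerSeries.monomial α 1 := by
    rw [← monomial_zero_eq_C_apply, monomial_mul_monomial, zero_add, mul_one]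
  have h2 : MvPowerSeries.C (σ := σ) (R := A) c ∈ rtk2cM σ I ^ (n - degree α) := by
    have := Ideal.mem_map_of_mem (MvPowerSeries.C (σ := σ) (R := A)) hc
    rw [Ideal.map_pow] at this
    exact Ideal.pow_right_mono le_sup_left _ this
  have h3 : MvPowerSeries.monomial α (1 : A) ∈ rtk2cM σ I ^ (degree α) := by
    refine Ideal.pow_right_mono le_sup_right _ (rtk2c_tail _ _ fun β hβ => ?_)
    rw [coeff_monomial, if_neg]
    rintro rfl
    omega
  rw [h1]
  have h4 := Ideal.mul_mem_mul h2 h3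
  rw [← pow_add] at h4
  have h5 : n - degree α + degree α = n := by omega
  rwa [h5] at h4

theorem rtk2c_poly_mem [Finite σ] (I : Ideal A) (n : ℕ) (p : MvPolynomial σ A)
    (hp : ∀ α : σ →₀ ℕ, p.coeff α ∈ I ^ (n - degree α)) :
    (p : MvPowerSeries σ A) ∈ rtk2cM σ I ^ n := by
  rw [p.as_sum, ← MvPolynomial.coeToMvPowerSeries.ringHom_apply, map_sum]
  refine Ideal.sum_mem _ fun α _ => ?_
  rw [MvPolynomial.coeToMvPowerSeries.ringHom_apply, MvPolynomial.coe_monomial]
  exact rtk2c_monomial_mem I n α _ (hp α)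

theorem rtk2c_B_le_pow [Finite σ] (I : Ideal A) (n : ℕ) : rtk2cB σ I n ≤ rtk2cM σ I ^ n := by
  classical
  intro f hf
  have h1 : ((truncTotal n f : MvPolynomial σ A) : MvPowerSeries σ A) ∈ rtk2cM σ I ^ n := by
    refine rtk2c_poly_mem I n _ fun α => ?_
    rw [coeff_truncTotal_eq_ite]
    split_ifs with h
    · exact hf α
    · exact Ideal.zero_mem _
  have h2 : f - ((truncTotal n f : MvPolynomial σ A) : MvPowerSeries σ A) ∈ rtk2cM σ I ^ n := by
    refine Ideal.pow_right_mono le_sup_right n (rtk2c_tail n _ fun β hβ => ?_)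
    rw [map_sub, MvPolynomial.coeff_coe, coeff_truncTotal _ hβ, sub_self]
  have := Ideal.add_mem _ h1 h2
  rwa [add_sub_cancel] at this

/-- `(I, X) ^ n` is the `n`-th step of the coefficient filtration. -/
theorem rtk2c_pow_eq [Finite σ] (I : Ideal A) (n : ℕ) : rtk2cM σ I ^ n = rtk2cB σ I n :=
  le_antisymm (rtk2c_pow_le_B I n) (rtk2c_B_le_pow I n)

theorem rtk2c_mem_pow_iff [Finite σ] (I : Ideal A) (n : ℕ) (f : MvPowerSeries σ A) :
    f ∈ rtk2cM σ I ^ n ↔ ∀ α : σ →₀ ℕ, coeff α f ∈ I ^ (n - degree α) := by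
  rw [rtk2c_pow_eq]
  rfl

/-- `A[[σ]]` is `(I, X)`-adically precomplete if `A` is `I`-adically precomplete. -/
theorem rtk2c_isPrecomplete [Finite σ] (I : Ideal A) [IsPrecomplete I A] :
    IsPrecomplete (rtk2cM σ I) (MvPowerSeries σ A) := by
  refine ⟨fun f hf => ?_⟩
  have hc : ∀ α : σ →₀ ℕ, ∃ a : A, ∀ j : ℕ,
      coeff α (f (j + degree α)) ≡ a [SMOD (I ^ j • ⊤ : Submodule A A)] := by
    intro α
    refine IsPrecomplete.prec ‹IsPrecomplete I A› (f := fun j => coeff α (f (j + degree α))) ?_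
    intro j j' hjj'
    have h1 := hf (m := j + degree α) (n := j' + degree α) (by omega)
    rw [SModEq.sub_mem, smul_eq_mul, Ideal.mul_top, rtk2c_mem_pow_iff] at h1
    have h2 := h1 α
    rw [SModEq.sub_mem, smul_eq_mul, Ideal.mul_top]
    rw [map_sub] at h2
    have h3 : j + degree α - degree α = j := by omega
    rwa [h3] at h2
  choose a ha using hc
  obtain ⟨L, hL⟩ : ∃ L : MvPowerSeries σ A, ∀ α, coeff α L = a α := ⟨fun α => a α, fun α => rfl⟩
  refine ⟨L, fun n => ?_⟩
  rw [SModEq.sub_mem, smul_eq_mul, Ideal.mul_top, rtk2c_mem_pow_iff]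
  intro α
  by_cases hα : degree α ≤ n
  · have h1 := ha α (n - degree α)
    rw [SModEq.sub_mem, smul_eq_mul, Ideal.mul_top] at h1
    have h2 : n - degree α + degree α = n := by omega
    rw [h2] at h1
    rw [map_sub, hL]
    exact h1
  · have h1 : n - degree α = 0 := by omega
    rw [h1, pow_zero, Ideal.one_eq_top]
    trivial

end Fermat.Agent.RT.K2c
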