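/-
K-machine, piece K2-3 (helper70): complete Noetherian local rings with finite residue field.

* `rtk2c_maximalIdeal_eq`   : `𝔪_{A[[σ]]} = (𝔪_A, X)`;
* `rtk2c_isAdicComplete`    : `A` complete Noetherian local ⇒ `A[[σ]]` complete (`σ` finite);
* `rtk2c_finite_residueField` : the residue field of `A[[σ]]` is finite if that of `A` is;
* `rtk2c_finite_quotient_pow` : `R ⧸ 𝔪 ^ k` is finite (`R` Noetherian local, finite residue field);
* `rtk2c_isPrecomplete_of_surjective`, `rtk2c_isAdicComplete_of_surjective`,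
  `rtk2c_finite_residueField_of_surjective` : quotients;
* `rtk2c_closed`, `rtk2c_closed_submodule` : ideals and submodules are closed.
Mathlib-only.
-/
import Fermat.Agent.RT.K2c.Coeff

set_option autoImplicit false

namespace Fermat.Agent.RT.K2c

open MvPowerSeries Finsupp IsLocalRing

section PowerSeries

variable {σ A : Type*} [CommRing A] [IsLocalRing A] [Finite σ]

omit [IsLocalRing A] in
theorem rtk2c_mem_M_iff (I : Ideal A) (f : MvPowerSeries σ A) :
    f ∈ rtk2cM σ I ↔ constantCoeff f ∈ I := by
  rw [← pow_one (rtk2cM σ I), rtk2c_mem_pow_iff]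
  constructor
  · intro h
    have := h 0
    simpa using this
  · intro h α
    by_cases hα : α = 0
    · subst hα
      simpa using h
    · have h1 : degree α ≠ 0 := fun h0 => hα ((degree_eq_zero_iff α).mp h0)
      have h2 : 1 - degree α = 0 := by omega
      rw [h2, pow_zero, Ideal.one_eq_top]
      trivial

/-- `𝔪_{A[[σ]]} = (𝔪_A, X)`. -/
theorem rtk2c_maximalIdeal_eq :
    maximalIdeal (MvPowerSeries σ A) = rtk2cM σ (maximalIdeal A) := by
  ext f
  rw [rtk2c_mem_M_iff, mem_maximalIdeal, mem_maximalIdeal, mem_nonunits_iff, mem_nonunits_iff,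
    MvPowerSeries.isUnit_iff_constantCoeff]

/-- `A[[σ]]` is complete if `A` is a complete Noetherian local ring. -/
theorem rtk2c_isAdicComplete [IsNoetherianRing A] [IsAdicComplete (maximalIdeal A) A] :
    IsAdicComplete (maximalIdeal (MvPowerSeries σ A)) (MvPowerSeries σ A) := by
  have h1 : IsPrecomplete (maximalIdeal (MvPowerSeries σ A)) (MvPowerSeries σ A) := by
    rw [rtk2c_maximalIdeal_eq]
    exact rtk2c_isPrecomplete (maximalIdeal A)
  exact { toIsHausdorff := inferInstance, toIsPrecomplete := h1 }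

theorem rtk2c_sub_C_mem (f : MvPowerSeries σ A) :
    f - MvPowerSeries.C (σ := σ) (R := A) (constantCoeff f) ∈
      maximalIdeal (MvPowerSeries σ A) := by
  rw [rtk2c_maximalIdeal_eq, rtk2c_mem_M_iff, map_sub, constantCoeff_C, sub_self]
  exact Ideal.zero_mem _

/-- The residue field of `A[[σ]]` is finite if the residue field of `A` is finite. -/
theorem rtk2c_finite_residueField [Finite (ResidueField A)] :
    Finite (ResidueField (MvPowerSeries σ A)) := by
  let g : A →+* ResidueField (MvPowerSeries σ A) :=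
    (residue (MvPowerSeries σ A)).comp (MvPowerSeries.C (σ := σ) (R := A))
  have hg : ∀ a ∈ maximalIdeal A, g a = 0 := by
    intro a ha
    show residue (MvPowerSeries σ A) (MvPowerSeries.C a) = 0
    rw [residue_eq_zero_iff, rtk2c_maximalIdeal_eq, rtk2c_mem_M_iff, constantCoeff_C]
    exact ha
  let g' : ResidueField A →+* ResidueField (MvPowerSeries σ A) :=
    Ideal.Quotient.lift (maximalIdeal A) g hg
  have hsurj : Function.Surjective g' := by
    intro y
    obtain ⟨f, rfl⟩ := residue_surjective y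
    refine ⟨residue A (constantCoeff f), ?_⟩
    show g (constantCoeff f) = residue _ f
    rw [eq_comm, ← sub_eq_zero]
    show residue _ f - residue _ (MvPowerSeries.C (constantCoeff f)) = 0
    rw [← map_sub, residue_eq_zero_iff]
    exact rtk2c_sub_C_mem f
  exact Finite.of_surjective g' hsurj

end PowerSeries

section General

variable {R : Type*} [CommRing R]

/-- `R ⧸ 𝔪 ^ k` is finite for a Noetherian local ring with finite residue field. -/
theorem rtk2c_finite_quotient_pow [IsLocalRing R] [IsNoetherianRing R]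
    [Finite (ResidueField R)] (k : ℕ) : Finite (R ⧸ maximalIdeal R ^ k) := by
  have : Finite (R ⧸ maximalIdeal R) := ‹Finite (ResidueField R)›
  exact Ideal.finite_quotient_pow (IsNoetherian.noetherian (maximalIdeal R)) k

/-- Ideals of a Noetherian ring are closed for the `I`-adic topology, `I ≤ rad R`. -/
theorem rtk2c_closed_of_le_jacobson [IsNoetherianRing R] (I : Ideal R)
    (hI : I ≤ Ideal.jacobson ⊥) (𝔞 : Ideal R) (s : R) (hs : ∀ n, s ∈ 𝔞 ⊔ I ^ n) : s ∈ 𝔞 := by
  have hH : IsHausdorff I (R ⧸ 𝔞) := IsHausdorff.of_le_jacobson I (R ⧸ 𝔞) hI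
  rw [← Ideal.Quotient.eq_zero_iff_mem]
  refine hH.haus _ fun n => ?_
  rw [SModEq.zero]
  obtain ⟨a, ha, b, hb, rfl⟩ := Submodule.mem_sup.mp (hs n)
  rw [map_add, Ideal.Quotient.eq_zero_iff_mem.mpr ha, zero_add]
  have : Ideal.Quotient.mk 𝔞 b = b • (1 : R ⧸ 𝔞) := by
    rw [Algebra.smul_def, mul_one]; rfl
  rw [this]
  exact Submodule.smul_mem_smul hb Submodule.mem_top

/-- Ideals of a Noetherian local ring are closed. -/
theorem rtk2c_closed [IsLocalRing R] [IsNoetherianRing R] (𝔞 : Ideal R) (s : R)
    (hs : ∀ n, s ∈ 𝔞 ⊔ maximalIdeal R ^ n) : s ∈ 𝔞 :=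
  rtk2c_closed_of_le_jacobson (maximalIdeal R) (maximalIdeal_le_jacobson ⊥) 𝔞 s hs

/-- Submodules of a finite module over a Noetherian ring are closed, `I ≤ rad R`. -/
theorem rtk2c_closed_submodule [IsNoetherianRing R] (I : Ideal R) (hI : I ≤ Ideal.jacobson ⊥)
    {M : Type*} [AddCommGroup M] [Module R M] [Module.Finite R M] (N : Submodule R M) (x : M)
    (hx : ∀ n, ∃ y ∈ N, x - y ∈ (I ^ n • ⊤ : Submodule R M)) : x ∈ N := by
  have hH : IsHausdorff I (M ⧸ N) := IsHausdorff.of_le_jacobson I (M ⧸ N) hI
  rw [← Submodule.Quotient.mk_eq_zero]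
  refine hH.haus _ fun n => ?_
  rw [SModEq.zero]
  obtain ⟨y, hy, hxy⟩ := hx n
  have h1 : (Submodule.Quotient.mk x : M ⧸ N) = N.mkQ (x - y) := by
    rw [Submodule.mkQ_apply, Submodule.Quotient.mk_sub, (Submodule.Quotient.mk_eq_zero N).mpr hy,
      sub_zero]
  rw [h1]
  have h2 : N.mkQ (x - y) ∈ Submodule.map N.mkQ (I ^ n • ⊤ : Submodule R M) :=
    Submodule.mem_map_of_mem hxy
  rw [Submodule.map_smul''] at h2
  exact Submodule.smul_mono le_rfl le_top h2

end General

section Quotient

variable {P R : Type*} [CommRing P] [CommRing R]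

/-- A quotient of a precomplete ring is precomplete. -/
theorem rtk2c_isPrecomplete_of_surjective (f : P →+* R) (hf : Function.Surjective f)
    (J : Ideal P) [IsPrecomplete J P] : IsPrecomplete (J.map f) R := by
  refine ⟨fun r hr => ?_⟩
  have hstep : ∀ n, ∃ e ∈ J ^ n, f e = r (n + 1) - r n := by
    intro n
    have h1 := hr (m := n) (n := n + 1) (Nat.le_succ n)
    rw [SModEq.sub_mem, smul_eq_mul, Ideal.mul_top, ← Ideal.map_pow] at h1
    have h2 : r (n + 1) - r n ∈ Ideal.map f (J ^ n) := by
      have := Ideal.neg_mem_iff _ |>.mpr h1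
      rwa [neg_sub] at this
    exact (Ideal.mem_map_iff_of_surjective f hf).mp h2
  choose e he hfe using hstep
  obtain ⟨x0, hx0⟩ := hf (r 0)
  let x : ℕ → P := fun n => Nat.rec x0 (fun k xk => xk + e k) n
  have hx_succ : ∀ n, x (n + 1) = x n + e n := fun n => rfl
  have hfx : ∀ n, f (x n) = r n := by
    intro n
    induction n with
    | zero => exact hx0
    | succ n ih => rw [hx_succ, map_add, ih, hfe]; ring
  have hcauchy : ∀ {m n : ℕ}, m ≤ n → x m ≡ x n [SMOD (J ^ m • ⊤ : Submodule P P)] := by
    intro m n hmn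
    induction n, hmn using Nat.le_induction with
    | base => rfl
    | succ n hmn ih =>
      refine ih.trans ?_
      rw [SModEq.sub_mem, smul_eq_mul, Ideal.mul_top, hx_succ, sub_add_cancel_left]
      exact Ideal.neg_mem_iff _ |>.mpr (Ideal.pow_le_pow_right hmn (he n))
  obtain ⟨L, hL⟩ := IsPrecomplete.prec ‹IsPrecomplete J P› hcauchy
  refine ⟨f L, fun n => ?_⟩
  have h1 := hL n
  rw [SModEq.sub_mem, smul_eq_mul, Ideal.mul_top] at h1 ⊢
  rw [← hfx, ← map_sub, ← Ideal.map_pow]
  exact Ideal.mem_map_of_mem f h1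

variable [IsLocalRing P] [IsLocalRing R]

theorem rtk2c_map_maximalIdeal (f : P →+* R) (hf : Function.Surjective f) :
    (maximalIdeal P).map f = maximalIdeal R := by
  have : IsLocalHom f := hf.isLocalHom f
  refine le_antisymm ?_ ?_
  · rw [Ideal.map_le_iff_le_comap]
    intro x hx
    rw [Ideal.mem_comap, mem_maximalIdeal, mem_nonunits_iff]
    intro hu
    exact (mem_maximalIdeal x).mp hx (isUnit_of_map_unit f x hu)
  · intro y hy
    obtain ⟨x, rfl⟩ := hf y
    refine Ideal.mem_map_of_mem f ?_
    rw [mem_maximalIdeal, mem_nonunits_iff]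
    intro hu
    exact (mem_maximalIdeal _).mp hy (hu.map f)

/-- A quotient of a complete Noetherian local ring is complete. -/
theorem rtk2c_isAdicComplete_of_surjective [IsNoetherianRing P]
    [IsAdicComplete (maximalIdeal P) P] (f : P →+* R) (hf : Function.Surjective f) :
    IsAdicComplete (maximalIdeal R) R := by
  have hN : IsNoetherianRing R := isNoetherianRing_of_surjective P R f hf
  have h1 : IsPrecomplete (maximalIdeal R) R := by
    rw [← rtk2c_map_maximalIdeal f hf]
    exact rtk2c_isPrecomplete_of_surjective f hf (maximalIdeal P)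
  exact { toIsHausdorff := inferInstance, toIsPrecomplete := h1 }

theorem rtk2c_finite_residueField_of_surjective [Finite (ResidueField P)] (f : P →+* R)
    (hf : Function.Surjective f) : Finite (ResidueField R) := by
  have : IsLocalHom f := hf.isLocalHom f
  refine Finite.of_surjective (ResidueField.map f) ?_
  intro y
  obtain ⟨r, rfl⟩ := residue_surjective y
  obtain ⟨x, rfl⟩ := hf r
  exact ⟨residue P x, rfl⟩

end Quotient

end Fermat.Agent.RT.K2c
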