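/-
K-machine, piece K2-3 (helper70): quotients `P ⧸ I` of a complete Noetherian local ring `P` with
finite residue field (application: `P = O[[σ]]`), in the form used by `rtp_patch`
(no `IsLocalRing (P ⧸ I)` instance is needed: the ideal is `J = 𝔪_P · (P ⧸ I)`).

* `rtk2c_quot_le_jacobson`     : `J ≤ rad (P ⧸ I)`;
* `rtk2c_quot_isAdicComplete`  : `P ⧸ I` is `J`-adically complete;
* `rtk2c_quot_finite_pow`      : `(P ⧸ I) ⧸ J ^ k` is finite;
* `rtk2c_finite_quotient_sup`  : `P ⧸ (I ⊔ 𝔪 ^ k)` is finite;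
* `rtk2c_quot_maximalIdeal`    : `J = 𝔪_{P ⧸ I}` if `I ≠ ⊤`;
* `rtk2c_mvPowerSeries_quot`   : all of this for `P = O[[σ]]`.
Mathlib-only.
-/
import Fermat.Agent.RT.K2c.Local

set_option autoImplicit false

namespace Fermat.Agent.RT.K2c

open IsLocalRing

section Quot

variable {P : Type*} [CommRing P] [IsLocalRing P] (I : Ideal P)

theorem rtk2c_map_le_jacobson {R : Type*} [CommRing R] (f : P →+* R)
    (hf : Function.Surjective f) : (maximalIdeal P).map f ≤ Ideal.jacobson ⊥ := by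
  intro y hy
  obtain ⟨x, hx, rfl⟩ := (Ideal.mem_map_iff_of_surjective f hf).mp hy
  rw [Ideal.mem_jacobson_bot]
  intro z
  obtain ⟨w, rfl⟩ := hf z
  have h1 : x * w ∈ maximalIdeal P := Ideal.mul_mem_right _ _ hx
  have h2 : IsUnit (x * w + 1) := by
    by_contra hu
    have h3 : x * w + 1 ∈ maximalIdeal P := (mem_maximalIdeal _).mpr hu
    have h4 : (1 : P) ∈ maximalIdeal P := by
      have := Ideal.sub_mem _ h3 h1
      rwa [add_sub_cancel_left] at this
    exact (mem_maximalIdeal _).mp h4 isUnit_one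
  have h5 := h2.map f
  rwa [map_add, map_mul, map_one] at h5

theorem rtk2c_quot_le_jacobson :
    (maximalIdeal P).map (Ideal.Quotient.mk I) ≤ Ideal.jacobson ⊥ :=
  rtk2c_map_le_jacobson _ Ideal.Quotient.mk_surjective

theorem rtk2c_quot_isPrecomplete [IsPrecomplete (maximalIdeal P) P] :
    IsPrecomplete ((maximalIdeal P).map (Ideal.Quotient.mk I)) (P ⧸ I) :=
  rtk2c_isPrecomplete_of_surjective _ Ideal.Quotient.mk_surjective _

theorem rtk2c_quot_isHausdorff [IsNoetherianRing P] :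
    IsHausdorff ((maximalIdeal P).map (Ideal.Quotient.mk I)) (P ⧸ I) :=
  IsHausdorff.of_le_jacobson _ _ (rtk2c_quot_le_jacobson I)

/-- `P ⧸ I` is complete for the ideal `𝔪_P · (P ⧸ I)`. -/
theorem rtk2c_quot_isAdicComplete [IsNoetherianRing P] [IsPrecomplete (maximalIdeal P) P] :
    IsAdicComplete ((maximalIdeal P).map (Ideal.Quotient.mk I)) (P ⧸ I) :=
  { toIsHausdorff := rtk2c_quot_isHausdorff I, toIsPrecomplete := rtk2c_quot_isPrecomplete I }

theorem rtk2c_finite_of_surjective_pow [IsNoetherianRing P] [Finite (ResidueField P)]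
    {R : Type*} [CommRing R] (f : P →+* R) (hf : Function.Surjective f) (k : ℕ) :
    Finite (R ⧸ ((maximalIdeal P).map f) ^ k) := by
  have hfin : Finite (P ⧸ maximalIdeal P ^ k) := rtk2c_finite_quotient_pow k
  have hle : maximalIdeal P ^ k ≤ Ideal.comap f (((maximalIdeal P).map f) ^ k) := by
    rw [← Ideal.map_le_iff_le_comap, Ideal.map_pow]
  refine Finite.of_surjective (Ideal.quotientMap _ f hle) ?_
  exact Ideal.quotientMap_surjective hf

/-- `(P ⧸ I) ⧸ J ^ k` is finite. -/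
theorem rtk2c_quot_finite_pow [IsNoetherianRing P] [Finite (ResidueField P)] (k : ℕ) :
    Finite ((P ⧸ I) ⧸ ((maximalIdeal P).map (Ideal.Quotient.mk I)) ^ k) :=
  rtk2c_finite_of_surjective_pow _ Ideal.Quotient.mk_surjective k

/-- `P ⧸ (I + 𝔪 ^ k)` is finite. -/
theorem rtk2c_finite_quotient_sup [IsNoetherianRing P] [Finite (ResidueField P)] (k : ℕ) :
    Finite (P ⧸ (I ⊔ maximalIdeal P ^ k)) := by
  have hfin : Finite (P ⧸ maximalIdeal P ^ k) := rtk2c_finite_quotient_pow k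
  exact Finite.of_surjective (Ideal.Quotient.factor (le_sup_right : maximalIdeal P ^ k ≤ _))
    (Ideal.Quotient.factor_surjective _)

theorem rtk2c_quot_isLocalRing (hI : I ≠ ⊤) : IsLocalRing (P ⧸ I) :=
  have : Nontrivial (P ⧸ I) := Ideal.Quotient.nontrivial_iff.mpr hI
  IsLocalRing.of_surjective' (Ideal.Quotient.mk I) Ideal.Quotient.mk_surjective

theorem rtk2c_quot_maximalIdeal [IsLocalRing (P ⧸ I)] :
    (maximalIdeal P).map (Ideal.Quotient.mk I) = maximalIdeal (P ⧸ I) :=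
  rtk2c_map_maximalIdeal _ Ideal.Quotient.mk_surjective

end Quot

section PowerSeries

variable {O : Type*} [CommRing O] [IsLocalRing O] [IsNoetherianRing O]
  [IsAdicComplete (maximalIdeal O) O] [Finite (ResidueField O)] {σ : Type*} [Finite σ]

/-- **K2-3.**  `P = O[[σ]]`, `O` a complete Noetherian local ring with finite residue field
(e.g. a complete discrete valuation ring with finite residue field), `σ` finite, `I` any ideal,
`J = 𝔪_P · (P ⧸ I)`: `J ≤ rad`, `P ⧸ I` is `J`-adically complete, `(P ⧸ I) ⧸ J ^ k` and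
`P ⧸ (I + 𝔪 ^ k)` are finite, and ideals of `P ⧸ I` are closed. -/
theorem rtk2c_mvPowerSeries_quot (I : Ideal (MvPowerSeries σ O)) :
    (maximalIdeal (MvPowerSeries σ O)).map (Ideal.Quotient.mk I) ≤ Ideal.jacobson ⊥ ∧
    IsAdicComplete ((maximalIdeal (MvPowerSeries σ O)).map (Ideal.Quotient.mk I))
      (MvPowerSeries σ O ⧸ I) ∧
    (∀ k, Finite ((MvPowerSeries σ O ⧸ I) ⧸
      ((maximalIdeal (MvPowerSeries σ O)).map (Ideal.Quotient.mk I)) ^ k)) ∧
    (∀ k, Finite (MvPowerSeries σ O ⧸ (I ⊔ maximalIdeal (MvPowerSeries σ O) ^ k))) ∧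
    ∀ (𝔞 : Ideal (MvPowerSeries σ O ⧸ I)) (s : MvPowerSeries σ O ⧸ I),
      (∀ n, s ∈ 𝔞 ⊔ ((maximalIdeal (MvPowerSeries σ O)).map (Ideal.Quotient.mk I)) ^ n) →
        s ∈ 𝔞 := by
  have hS : IsAdicComplete (maximalIdeal (MvPowerSeries σ O)) (MvPowerSeries σ O) :=
    rtk2c_isAdicComplete
  have hSf : Finite (ResidueField (MvPowerSeries σ O)) := rtk2c_finite_residueField
  refine ⟨rtk2c_quot_le_jacobson I, rtk2c_quot_isAdicComplete I,
    fun k => rtk2c_quot_finite_pow I k, fun k => rtk2c_finite_quotient_sup I k, ?_⟩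
  exact rtk2c_closed_of_le_jacobson _ (rtk2c_quot_le_jacobson I)

end PowerSeries

end Fermat.Agent.RT.K2c
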